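import Fermat.Agent.MartonPFR.Laws

/-!
# Entropic Ruzsa distance

For laws on a finite abelian group (with sums in place of differences): the triangle inequality,
conditioned distances, Madiman's inequality and the entropic Balog–Szemerédi–Gowers lemma.
-/

set_option autoImplicit false

noncomputable section

namespace FA.MartonPFR

open Finset Real

variable {G γ γ' : Type*} [Fintype G] [DecidableEq G] [AddCommGroup G]
  [Fintype γ] [DecidableEq γ] [Fintype γ'] [DecidableEq γ']

/-- The law of the sum of independent variables. -/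
def conv (p q : G → ℝ) : G → ℝ := push (prodLaw p q) fun x => x.1 + x.2

/-- The entropic Ruzsa distance. -/
def rdist (p q : G → ℝ) : ℝ := entropy (conv p q) - entropy p / 2 - entropy q / 2

/-- The distance to a variable given a second one. -/
def cdist (p : G → ℝ) (r : G × γ → ℝ) : ℝ :=
  entropy (push (prodLaw p r) fun x => (x.1 + x.2.1, x.2.2)) - entropy (push r Prod.snd) -
    entropy p / 2 - (entropy r - entropy (push r Prod.snd)) / 2

/-- The distance with both variables conditioned. -/
def cdist₂ (r : G × γ → ℝ) (r' : G × γ' → ℝ) : ℝ :=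
  entropy (push (prodLaw r r') fun x => (x.1.1 + x.2.1, (x.1.2, x.2.2))) -
    entropy (push r Prod.snd) - entropy (push r' Prod.snd) -
      (entropy r - entropy (push r Prod.snd)) / 2 - (entropy r' - entropy (push r' Prod.snd)) / 2

theorem IsLaw.conv {p q : G → ℝ} (hp : IsLaw p) (hq : IsLaw q) : IsLaw (conv p q) :=
  (hp.prodLaw hq).push _

theorem conv_comm (p q : G → ℝ) : conv p q = conv q p := by
  have h : prodLaw q p = push (prodLaw p q) Prod.swap := by
    funext x
    rw [← Prod.swap_swap x, push_injective_apply _ Prod.swap_injective]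
    simp [prodLaw, mul_comm]
  rw [conv, conv, h, push_push]
  congr 1
  funext x
  exact add_comm _ _

theorem conv_push {α β : Type*} [Fintype α] [Fintype β] (μ : α → ℝ) (ν : β → ℝ) (f : α → G)
    (g : β → G) :
    conv (push μ f) (push ν g) = push (prodLaw μ ν) fun x => f x.1 + g x.2 := by
  rw [conv, ← push_prodLaw, push_push]

theorem entropy_le_conv {p q : G → ℝ} (hp : IsLaw p) (hq : IsLaw q) :
    entropy p ≤ entropy (conv p q) := by
  have h := entropy_pair_le (hp.prodLaw hq) (fun x => x.1 + x.2) Prod.snd
  have e : entropy (push (prodLaw p q) fun x => (x.1 + x.2, x.2)) =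
      entropy p + entropy q := by
    rw [← entropy_prodLaw hp hq]
    exact entropy_push_injective _ fun x y h => by
      simp only [Prod.mk.injEq] at h
      exact Prod.ext (add_right_cancel (h.2 ▸ h.1)) h.2
  rw [e, push_snd_prodLaw hp] at h
  exact le_of_add_le_add_right h

theorem rdist_nonneg {p q : G → ℝ} (hp : IsLaw p) (hq : IsLaw q) : 0 ≤ rdist p q := by
  have h1 := entropy_le_conv hp hq
  have h2 := entropy_le_conv hq hp
  rw [conv_comm] at h2
  rw [rdist]
  linarith

theorem rdist_comm (p q : G → ℝ) : rdist p q = rdist q p := by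
  rw [rdist, rdist, conv_comm]
  ring

theorem push_id {α : Type*} [Fintype α] [DecidableEq α] (p : α → ℝ) :
    push p (fun a => a) = p := by
  funext a; simp [push, sum_filter]

theorem conv_conv (p q r : G → ℝ) :
    conv p (conv q r) = push (prodLaw p (prodLaw q r)) fun x => x.1 + (x.2.1 + x.2.2) := by
  conv_lhs => rw [← push_id p]
  exact conv_push p (prodLaw q r) (fun a => a) fun y => y.1 + y.2

theorem conv_left_comm (p q r : G → ℝ) : conv p (conv q r) = conv q (conv p r) := by
  have hi : Function.Injective fun x : G × G × G => (x.2.1, x.1, x.2.2) := fun x y h => by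
    simp only [Prod.mk.injEq] at h
    exact Prod.ext h.2.1 (Prod.ext h.1 h.2.2)
  have h : prodLaw q (prodLaw p r) =
      push (prodLaw p (prodLaw q r)) fun x => (x.2.1, x.1, x.2.2) := funext fun ⟨b, a, c⟩ => by
    rw [show (b, a, c) = (fun x : G × G × G => (x.2.1, x.1, x.2.2)) (a, b, c) from rfl,
      push_injective_apply _ hi]
    simp [prodLaw, mul_left_comm]
  rw [conv_conv, conv_conv, h, push_push]
  simp only [add_left_comm]

/-- **Madiman's inequality.** -/
theorem entropy_conv_conv_le {p q r : G → ℝ} (hp : IsLaw p) (hq : IsLaw q) (hr : IsLaw r) :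
    entropy (conv p (conv q r)) + entropy q ≤ entropy (conv p q) + entropy (conv q r) := by
  have hμ := hp.prodLaw (hq.prodLaw hr)
  have h := entropy_submodular hμ (fun x => x.1) (fun x => x.2.2) fun x => x.1 + (x.2.1 + x.2.2)
  have e0 : push (prodLaw p (prodLaw q r)) (fun x => x.1 + (x.2.1 + x.2.2)) =
      conv p (conv q r) := by
    rw [show conv p (conv q r) = conv (push p id) (push (prodLaw q r) fun y => y.1 + y.2) by
      congr 1; funext a; simp [push, sum_filter], conv_push]
    rfl
  have e3 : entropy (push (prodLaw p (prodLaw q r)) fun x => (x.1, x.2.2, x.1 + (x.2.1 + x.2.2))) =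
      entropy p + (entropy q + entropy r) := by
    rw [← entropy_prodLaw hq hr, ← entropy_prodLaw hp (hq.prodLaw hr)]
    refine entropy_push_injective _ fun x y h => ?_
    simp only [Prod.mk.injEq] at h
    obtain ⟨h1, h2, h3⟩ := h
    rw [h1, h2] at h3
    exact Prod.ext h1 (Prod.ext (add_right_cancel (add_left_cancel h3)) h2)
  have e1 : entropy (push (prodLaw p (prodLaw q r)) fun x => (x.1, x.1 + (x.2.1 + x.2.2))) =
      entropy p + entropy (conv q r) := by
    have e : prodLaw p (conv q r) =
        push (prodLaw p (prodLaw q r)) fun x => (x.1, x.2.1 + x.2.2) := by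
      rw [push_prodLaw p (prodLaw q r) (fun a => a) fun y => y.1 + y.2, push_id]
      rfl
    rw [← entropy_prodLaw hp (hq.conv hr), e,
      ← entropy_push_injective (push (prodLaw p (prodLaw q r)) fun x => (x.1, x.2.1 + x.2.2))
      (f := fun y : G × G => (y.1, y.1 + y.2)) (fun a b h => by
        simp only [Prod.mk.injEq] at h
        exact Prod.ext h.1 (add_left_cancel (h.1 ▸ h.2))), push_push]
  have e2 : entropy (push (prodLaw p (prodLaw q r)) fun x => (x.2.2, x.1 + (x.2.1 + x.2.2))) =
      entropy r + entropy (conv p q) := by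
    have e : prodLaw r (conv p q) =
        push (prodLaw p (prodLaw q r)) fun x => (x.2.2, x.1 + x.2.1) := by
      funext ⟨c, s⟩
      simp only [prodLaw, conv, push, sum_filter, Fintype.sum_prod_type, mul_sum, Prod.mk.injEq]
      refine sum_congr rfl fun a _ => sum_congr rfl fun b _ => ?_
      rw [sum_eq_single c (fun d _ hd => by simp [hd]) (by simp)]
      by_cases hs : a + b = s <;> simp [hs, mul_left_comm, mul_comm]
    rw [← entropy_prodLaw hr (hp.conv hq), e,
      ← entropy_push_injective (push (prodLaw p (prodLaw q r)) fun x => (x.2.2, x.1 + x.2.1))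
      (f := fun y : G × G => (y.1, y.2 + y.1)) (fun a b h => by
        simp only [Prod.mk.injEq] at h
        exact Prod.ext h.1 (add_right_cancel (h.1 ▸ h.2))), push_push]
    simp only [add_assoc]
  rw [e3, e0, e1, e2] at h
  linarith

theorem rdist_triangle {p q r : G → ℝ} (hp : IsLaw p) (hq : IsLaw q) (hr : IsLaw r) :
    rdist p r ≤ rdist p q + rdist q r := by
  have h1 := entropy_conv_conv_le hp hq hr
  have h2 := entropy_le_conv (hp.conv hr) hq
  rw [conv_left_comm] at h1
  rw [conv_comm (conv p r)] at h2
  simp only [rdist]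
  linarith

theorem rdist_conv_le {p q r : G → ℝ} (hp : IsLaw p) (hq : IsLaw q) (hr : IsLaw r) :
    rdist p (conv q r) ≤ rdist p q + (entropy (conv q r) - entropy q) / 2 := by
  have h := entropy_conv_conv_le hp hq hr
  simp only [rdist]
  linarith

theorem cdist_le {p : G → ℝ} {r : G × γ → ℝ} (hp : IsLaw p) (hr : IsLaw r) :
    cdist p r ≤ rdist p (push r Prod.fst) +
      (entropy (push r Prod.fst) + entropy (push r Prod.snd) - entropy r) / 2 := by
  have h := entropy_pair_le (hp.prodLaw hr) (fun x => x.1 + x.2.1) fun x => x.2.2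
  have e1 : (push (prodLaw p r) fun x => x.1 + x.2.1) = conv p (push r Prod.fst) := by
    rw [show conv p (push r Prod.fst) = conv (push p id) (push r Prod.fst) by
      congr 1; funext a; simp [push, sum_filter], conv_push]
    rfl
  have e2 : (push (prodLaw p r) fun x => x.2.2) = push r Prod.snd := by
    rw [← push_push (prodLaw p r) Prod.snd Prod.snd, push_snd_prodLaw hp]
  rw [e1, e2] at h
  simp only [cdist, rdist]
  linarith

omit [DecidableEq γ] in
theorem slice_push_prodLaw {α : Type*} [Fintype α] {p : α → ℝ} (hp : IsLaw p) {r : G × γ → ℝ}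
    (f : α → G) (c : γ) [DecidableEq γ] :
    slice (push (prodLaw p r) fun x => (f x.1 + x.2.1, x.2.2)) c =
      conv (push p f) (slice r c) := by
  funext a
  have hsum : ∀ a, push (prodLaw p r) (fun x => (f x.1 + x.2.1, x.2.2)) (a, c) =
      ∑ i, ∑ b, (if f i + b = a then p i * r (b, c) else 0) := fun a => by
    simp only [push, sum_filter, Fintype.sum_prod_type, prodLaw, Prod.mk.injEq]
    refine sum_congr rfl fun i _ => sum_congr rfl fun b _ => ?_
    rw [sum_eq_single c (fun d _ hd => by simp [hd]) (by simp)]
    simp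
  have hm : ∑ a, push (prodLaw p r) (fun x => (f x.1 + x.2.1, x.2.2)) (a, c) = ∑ b, r (b, c) := by
    simp only [hsum]
    rw [sum_comm]
    simp only [sum_comm (s := (univ : Finset G)) (t := (univ : Finset G)), sum_ite_eq, mem_univ,
      if_true, ← sum_mul, ← mul_sum, hp.sum_eq, one_mul]
  rw [slice, hm, hsum, show conv (push p f) (slice r c) =
    push (prodLaw p (slice r c)) (fun x => f x.1 + x.2) from by
      rw [show slice r c = push (slice r c) id from funext fun b => by simp [push, sum_filter],
        conv_push]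
      simp [show push (slice r c) id = slice r c from funext fun b => by simp [push, sum_filter]]]
  simp only [push, sum_filter, Fintype.sum_prod_type, prodLaw, slice, sum_div]
  refine sum_congr rfl fun i _ => sum_congr rfl fun b _ => ?_
  split_ifs <;> ring

theorem sum_mul_rdist_slice {p : G → ℝ} {r : G × γ → ℝ} (hp : IsLaw p) (hr : IsLaw r) :
    ∑ c, push r Prod.snd c * rdist p (slice r c) = cdist p r := by
  have h1 := sum_mul_entropy_slice hr
  have hR := (hp.prodLaw hr).push fun x : G × G × γ => (x.1 + x.2.1, x.2.2)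
  have h2 := sum_mul_entropy_slice hR
  have e : push (push (prodLaw p r) fun x => (x.1 + x.2.1, x.2.2)) Prod.snd = push r Prod.snd := by
    rw [push_push, ← push_push (prodLaw p r) Prod.snd Prod.snd, push_snd_prodLaw hp]
  simp only [e, slice_push_prodLaw hp (fun a => a), push_id] at h2
  simp only [rdist, cdist, mul_sub, sum_sub_distrib, h2, ← mul_div_assoc, ← sum_div, h1,
    ← sum_mul, (hr.push Prod.snd).sum_eq, one_mul]

theorem sum_mul_rdist_slice₂ {r : G × γ → ℝ} {r' : G × γ' → ℝ} (hr : IsLaw r) (hr' : IsLaw r') :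
    ∑ c, ∑ c', push r Prod.snd c * push r' Prod.snd c' * rdist (slice r c) (slice r' c') =
      cdist₂ r r' := by
  have h1 := sum_mul_entropy_slice hr
  have h2 := sum_mul_entropy_slice hr'
  obtain ⟨R, hR⟩ : ∃ R : G × γ × γ' → ℝ,
      R = push (prodLaw r r') fun x => (x.1.1 + x.2.1, (x.1.2, x.2.2)) := ⟨_, rfl⟩
  have h3 := sum_mul_entropy_slice (hR ▸ (hr.prodLaw hr').push _ : IsLaw R)
  have hsnd : push R Prod.snd = prodLaw (push r Prod.snd) (push r' Prod.snd) := by
    rw [hR, push_push, ← push_prodLaw]
  have hslice : ∀ c c', push r Prod.snd c * push r' Prod.snd c' * entropy (slice R (c, c')) =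
      push r Prod.snd c * push r' Prod.snd c' *
        entropy (conv (slice r c) (slice r' c')) := fun c c' => by
    rcases eq_or_ne (push r Prod.snd c * push r' Prod.snd c') 0 with h | h
    · rw [h, zero_mul, zero_mul]
    refine congrArg (_ * entropy ·) (funext fun a => ?_)
    have hsum : ∀ a, R (a, c, c') = ∑ i, ∑ b, (if i + b = a then r (i, c) * r' (b, c') else 0) := by
      intro a
      rw [hR]
      simp only [push, sum_filter, Fintype.sum_prod_type, prodLaw, Prod.mk.injEq]
      refine sum_congr rfl fun i _ => ?_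
      rw [sum_eq_single c (fun d _ hd => by simp [hd]) (by simp)]
      refine sum_congr rfl fun b _ => ?_
      rw [sum_eq_single c' (fun d _ hd => by simp [hd]) (by simp)]
      simp
    have hm : ∑ a, R (a, c, c') = push r Prod.snd c * push r' Prod.snd c' := by
      rw [← push_snd_eq, hsnd]; rfl
    rw [slice, hm, hsum, push_snd_eq, push_snd_eq]
    simp only [conv, push, sum_filter, Fintype.sum_prod_type, prodLaw, slice, sum_div]
    refine sum_congr rfl fun i _ => sum_congr rfl fun b _ => ?_
    split_ifs <;> ring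
  rw [Fintype.sum_prod_type, hsnd] at h3
  simp only [prodLaw] at h3
  simp only [hslice] at h3
  rw [entropy_prodLaw (hr.push _) (hr'.push _), hR] at h3
  have hA : ∀ F : γ → ℝ, ∑ c, ∑ c', push r Prod.snd c * push r' Prod.snd c' * F c =
      ∑ c, push r Prod.snd c * F c := fun F => sum_congr rfl fun c _ => by
    simp only [mul_right_comm _ _ (F c), ← mul_sum, (hr'.push Prod.snd).sum_eq, mul_one]
  have hB : ∀ F : γ' → ℝ, ∑ c, ∑ c', push r Prod.snd c * push r' Prod.snd c' * F c' =
      ∑ c', push r' Prod.snd c' * F c' := fun F => by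
    simp only [mul_assoc, ← mul_sum, ← sum_mul, (hr.push Prod.snd).sum_eq, one_mul]
  have hA' := hA fun c => entropy (slice r c) / 2
  have hB' := hB fun c' => entropy (slice r' c') / 2
  simp only [← mul_div_assoc, ← sum_div, h1] at hA'
  simp only [← mul_div_assoc, ← sum_div, h2] at hB'
  simp only [rdist, cdist₂, mul_sub, sum_sub_distrib, h3, ← mul_div_assoc, ← sum_div, hA', hB']
  ring

theorem cdist_shear {p : G → ℝ} {r : G × G → ℝ} :
    cdist p (push r fun x => (x.1 + x.2, x.2)) = cdist p r := by
  have hinj : Function.Injective fun x : G × G => (x.1 + x.2, x.2) := fun a b h => by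
    simp only [Prod.mk.injEq] at h
    exact Prod.ext (add_right_cancel (h.2 ▸ h.1)) h.2
  have e : (push (prodLaw p (push r fun x => (x.1 + x.2, x.2))) fun x => (x.1 + x.2.1, x.2.2)) =
      push (push (prodLaw p r) fun x => (x.1 + x.2.1, x.2.2)) fun x => (x.1 + x.2, x.2) := by
    conv_lhs => rw [← push_id p, ← push_prodLaw]
    rw [push_push, push_push]
    simp only [add_assoc]
  rw [cdist, cdist, e, entropy_push_injective _ hinj, entropy_push_injective _ hinj, push_push]

/-- **The entropic Balog–Szemerédi–Gowers lemma**: `r` is the law of `(A, (A + B, C))`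
and everything is given `C`. -/
theorem entropic_bsg {r : G × G × γ → ℝ} (hr : IsLaw r) :
    ∑ z, push r Prod.snd z * rdist (slice r z) (slice r z) ≤
      3 * (entropy (push r fun x => (x.1, x.2.2)) + entropy (push r fun x => (x.1 + x.2.1, x.2.2)) -
          entropy (push r fun x => x.2.2) - entropy r) +
        2 * entropy (push r Prod.snd) - entropy (push r fun x => (x.1, x.2.2)) -
          entropy (push r fun x => (x.1 + x.2.1, x.2.2)) := by
  obtain ⟨μ, hμdef⟩ : ∃ μ : G × G × G × γ → ℝ, μ = fun x => slice r x.2.2 x.1 * r (x.2.1, x.2.2) :=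
    ⟨_, rfl⟩
  have hpt : ∀ a b c, μ (a, b, c) = μ (b, a, c) := fun a b c => by
    simp only [hμdef, slice]; ring
  have hsnd : ∀ y : G × G × γ, ∑ a, μ (a, y) = r y := fun y => by
    rcases eq_or_ne (∑ a, r (a, y.2)) 0 with h | h
    · have h0 := (sum_eq_zero_iff_of_nonneg fun a _ => hr.nonneg (a, y.2)).1 h y.1 (mem_univ _)
      simp only [hμdef, Prod.mk.eta] at h0 ⊢
      simp [h0]
    · simp only [hμdef, ← sum_mul, (hr.slice h).sum_eq, one_mul, Prod.mk.eta]
  have hμ : IsLaw μ := ⟨fun x => hμdef ▸ mul_nonneg
      (div_nonneg (hr.nonneg _) (sum_nonneg fun _ _ => hr.nonneg _)) (hr.nonneg _), by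
    rw [Fintype.sum_prod_type_right]; simp only [hsnd, hr.sum_eq]⟩
  have m2 : push μ Prod.snd = r := funext fun y => (push_snd_eq μ y).trans (hsnd y)
  have m1 : (push μ fun x => (x.1, x.2.2)) = r := by
    have hs : μ = push μ fun x => (x.2.1, x.1, x.2.2) := funext fun ⟨a, b, c⟩ => by
      have hi : Function.Injective fun x : G × G × G × γ => (x.2.1, x.1, x.2.2) := fun x y h => by
        simp only [Prod.mk.injEq] at h
        exact Prod.ext h.2.1 (Prod.ext h.1 h.2.2)
      rw [show (a, b, c) = (fun x : G × G × G × γ => (x.2.1, x.1, x.2.2)) (b, a, c) from rfl,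
        push_injective_apply _ hi]
      exact hpt a b c
    conv_lhs => rw [hs, push_push]
    exact m2
  have hfull : entropy μ = 2 * entropy r - entropy (push r Prod.snd) := by
    have h := sum_mul_entropy_slice hμ
    have e : ∀ y : G × G × γ, push μ Prod.snd y * entropy (slice μ y) =
        r y * entropy (slice r y.2) := fun y => by
      rw [m2]
      rcases eq_or_ne (r y) 0 with h0 | h0
      · rw [h0, zero_mul, zero_mul]
      refine congrArg (_ * entropy ·) (funext fun a => ?_)
      rw [slice, hsnd]
      simp only [hμdef, Prod.mk.eta]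
      exact mul_div_cancel_right₀ _ h0
    rw [sum_congr rfl fun y _ => e y, m2] at h
    rw [Fintype.sum_prod_type_right] at h
    simp only [← sum_mul, ← push_snd_eq, sum_mul_entropy_slice hr] at h
    linarith
  have mz : (push μ fun x => x.2.2) = push r Prod.snd := by rw [← push_push μ Prod.snd, m2]
  obtain ⟨D, hD⟩ : ∃ D : G × G × G × γ → G, D = fun x => x.1 + x.2.1 + x.2.2.1 := ⟨_, rfl⟩
  have h := entropy_submodular hμ (fun x => x.1) (fun x => x.1 + x.2.2.1)
    fun x => (D x, x.2.2.2)
  have e3 : entropy (push μ fun x => (x.1, x.1 + x.2.2.1, D x, x.2.2.2)) = entropy μ :=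
    entropy_push_injective _ fun x y h => by
      simp only [hD, Prod.mk.injEq] at h
      obtain ⟨h1, h2, h3, h4⟩ := h
      rw [h1] at h2 h3
      have h2' := add_left_cancel h2
      rw [h2'] at h3
      exact Prod.ext h1 (Prod.ext (add_left_cancel (add_right_cancel h3)) (Prod.ext h2' h4))
  have hA : (push μ fun x => (x.1, x.2.2.2)) = push r fun x => (x.1, x.2.2) := by
    rw [← m1, push_push]
  have hA' : (push μ fun x => (x.2.1, x.2.2.2)) = push r fun x => (x.1, x.2.2) := by
    rw [← m2, push_push]
  have hB : (push μ fun x => (x.1 + x.2.2.1, x.2.2.2)) =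
      push r fun x => (x.1 + x.2.1, x.2.2) := by
    rw [← m1, push_push]
  have hB' : (push μ fun x => (x.2.1 + x.2.2.1, x.2.2.2)) =
      push r fun x => (x.1 + x.2.1, x.2.2) := by
    rw [← m2, push_push]
  have hC : (push μ fun x => x.2.2.2) = push r fun x => x.2.2 := by
    rw [← m2, push_push]
  have hi : Function.Injective fun y : G × G × γ => (y.1, y.1 + y.2.1, y.2.2) := fun a b h => by
    simp only [Prod.mk.injEq] at h
    exact Prod.ext h.1 (Prod.ext (add_left_cancel (h.1 ▸ h.2.1)) h.2.2)
  have e1 : entropy (push μ fun x => (x.1, D x, x.2.2.2)) + entropy (push r fun x => x.2.2) ≤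
      entropy (push r fun x => (x.1, x.2.2)) +
        entropy (push r fun x => (x.1 + x.2.1, x.2.2)) := by
    rw [← hA, ← hB', ← hC]
    refine le_trans (le_of_eq ?_) (entropy_submodular hμ (fun x => x.1)
      (fun x => x.2.1 + x.2.2.1) fun x => x.2.2.2)
    rw [← entropy_push_injective (push μ fun x => (x.1, x.2.1 + x.2.2.1, x.2.2.2)) hi, push_push]
    simp only [hD, add_assoc]
  have e2 : entropy (push μ fun x => (x.1 + x.2.2.1, D x, x.2.2.2)) +
      entropy (push r fun x => x.2.2) ≤
      entropy (push r fun x => (x.1 + x.2.1, x.2.2)) +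
        entropy (push r fun x => (x.1, x.2.2)) := by
    rw [← hB, ← hA', ← hC]
    refine le_trans (le_of_eq ?_) (entropy_submodular hμ (fun x => x.1 + x.2.2.1)
      (fun x => x.2.1) fun x => x.2.2.2)
    rw [← entropy_push_injective (push μ fun x => (x.1 + x.2.2.1, x.2.1, x.2.2.2)) hi, push_push]
    simp only [hD, add_right_comm]
  have hDz := entropy_submodular hμ D (fun x => x.2.2.1) fun x => x.2.2.2
  obtain ⟨R, hR⟩ : ∃ R : G × G × γ → ℝ, R = push μ fun x => (x.1 + x.2.1, x.2.2) := ⟨_, rfl⟩
  have hRD : entropy R = entropy (push μ fun x => (D x, x.2.2.1, x.2.2.2)) := by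
    rw [hR, ← entropy_push_injective (push μ fun x => (x.1 + x.2.1, x.2.2))
      (f := fun y : G × G × γ => (y.1 + y.2.1, y.2)) (fun a b h => by
        simp only [Prod.mk.injEq] at h
        exact Prod.ext (add_right_cancel (h.2 ▸ h.1)) h.2), push_push]
    simp only [hD, Prod.mk.eta]
  have hRsnd : push R Prod.snd = push r Prod.snd := by rw [hR, push_push, mz]
  have hchain := sum_mul_entropy_slice (hR ▸ hμ.push _ : IsLaw R)
  have hconv : ∀ z, push r Prod.snd z * entropy (slice R z) =
      push r Prod.snd z * entropy (conv (slice r z) (slice r z)) := fun z => by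
    rcases eq_or_ne (push r Prod.snd z) 0 with h0 | h0
    · rw [h0, zero_mul, zero_mul]
    refine congrArg (fun t => push r Prod.snd z * entropy t) (funext fun a => ?_)
    have hsum : R (a, z) = ∑ i, ∑ b, (if i + b = a then μ (i, b, z) else 0) := by
      rw [hR]
      obtain ⟨z₁, z₂⟩ := z
      simp only [push, sum_filter, Fintype.sum_prod_type, Prod.mk.injEq]
      refine sum_congr rfl fun i _ => sum_congr rfl fun b _ => ?_
      rw [sum_eq_single z₁ (fun d _ hd => by simp [hd]) (by simp),
        sum_eq_single z₂ (fun d _ hd => by simp [hd]) (by simp)]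
      simp
    rw [slice, ← push_snd_eq, hRsnd, hsum, push_snd_eq]
    simp only [conv, push, sum_filter, Fintype.sum_prod_type, prodLaw, hμdef, slice, sum_div]
    refine sum_congr rfl fun i _ => sum_congr rfl fun b _ => ?_
    split_ifs <;> ring
  simp only [hRsnd, hconv] at hchain
  have hslice := sum_mul_entropy_slice hr
  simp only [rdist, mul_sub, sum_sub_distrib, hchain, ← mul_div_assoc, ← sum_div, hslice]
  rw [e3, hfull] at h
  simp only [Prod.mk.eta] at hDz hRD
  rw [hC, mz] at hDz
  linarith

end FA.MartonPFR
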