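import Fermat.Agent.LogChowla.Entropy
import Mathlib.Algebra.BigOperators.Ring.Finset
import Mathlib.Data.Fintype.Prod
import Mathlib.Tactic

/-!
# Laws on finite sets and their entropy

Laws are real functions on finite types, random variables are maps out of one. Entropy of
push-forwards, products, submodularity and conditioning by slices.
-/

set_option autoImplicit false

noncomputable section

namespace FA.MartonPFR

open Finset Real

variable {α β γ δ : Type*} [Fintype α] [Fintype β] [Fintype γ] [Fintype δ]

/-- A probability law. -/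
structure IsLaw (p : α → ℝ) : Prop where
  nonneg : ∀ a, 0 ≤ p a
  sum_eq : ∑ a, p a = 1

/-- The law of `f`. -/
def push [DecidableEq β] (p : α → ℝ) (f : α → β) (b : β) : ℝ := ∑ a with f a = b, p a

/-- The product law. -/
def prodLaw (p : α → ℝ) (q : β → ℝ) (x : α × β) : ℝ := p x.1 * q x.2

/-- The entropy of a law. -/
def entropy (p : α → ℝ) : ℝ := ∑ a, negMulLog (p a)

/-- The conditional law given the value `c` of the second coordinate. -/
def slice (r : α × γ → ℝ) (c : γ) (a : α) : ℝ := r (a, c) / ∑ a', r (a', c)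

theorem IsLaw.push [DecidableEq β] {p : α → ℝ} (hp : IsLaw p) (f : α → β) :
    IsLaw (push p f) :=
  ⟨fun _ => sum_nonneg fun a _ => hp.nonneg a, (sum_fiberwise univ f p).trans hp.sum_eq⟩

theorem IsLaw.prodLaw {p : α → ℝ} {q : β → ℝ} (hp : IsLaw p) (hq : IsLaw q) :
    IsLaw (prodLaw p q) := by
  refine ⟨fun x => mul_nonneg (hp.nonneg _) (hq.nonneg _), ?_⟩
  simp only [Fintype.sum_prod_type, MartonPFR.prodLaw, ← mul_sum, hq.sum_eq, mul_one, hp.sum_eq]

theorem sum_push_mul [DecidableEq β] (p : α → ℝ) (f : α → β) (F : β → ℝ) :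
    ∑ b, push p f b * F b = ∑ a, p a * F (f a) := by
  rw [← sum_fiberwise univ f fun a => p a * F (f a)]
  refine sum_congr rfl fun b _ => ?_
  rw [push, sum_mul]
  exact sum_congr rfl fun a ha => by rw [(mem_filter.1 ha).2]

omit [Fintype γ] in
theorem push_push [DecidableEq β] [DecidableEq γ] (p : α → ℝ) (f : α → β) (g : β → γ) :
    push (push p f) g = push p (fun a => g (f a)) := by
  funext c
  have h := sum_push_mul p f fun b => if g b = c then (1 : ℝ) else 0
  simpa [push, mul_ite, ← sum_filter] using h

omit [Fintype β] in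
theorem push_injective_apply [DecidableEq β] (p : α → ℝ) {f : α → β} (hf : Function.Injective f)
    (a : α) : push p f (f a) = p a := by
  classical
  simp [push, hf.eq_iff, sum_filter]

theorem entropy_push_injective [DecidableEq β] (p : α → ℝ) {f : α → β}
    (hf : Function.Injective f) : entropy (push p f) = entropy p := by
  classical
  rw [entropy, entropy, ← sum_image (s := univ) (g := f) (f := fun b => negMulLog (push p f b))
    hf.injOn |>.trans (sum_congr rfl fun a _ => by rw [push_injective_apply p hf a])]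
  refine (sum_subset (subset_univ _) fun b _ hb => ?_).symm
  rw [show push p f b = 0 from sum_eq_zero fun a ha => absurd
    (mem_image.2 ⟨a, mem_univ a, (mem_filter.1 ha).2⟩) hb, negMulLog_zero]

omit [Fintype γ] [Fintype δ] in
theorem push_prodLaw [DecidableEq γ] [DecidableEq δ] (p : α → ℝ) (q : β → ℝ) (f : α → γ)
    (g : β → δ) :
    push (prodLaw p q) (fun x => (f x.1, g x.2)) = prodLaw (push p f) (push q g) := by
  funext ⟨c, d⟩
  simp only [push, prodLaw, sum_mul_sum, ← sum_product']
  refine sum_congr ?_ fun x _ => rfl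
  ext x
  simp

theorem push_fst_prodLaw [DecidableEq α] (p : α → ℝ) {q : β → ℝ} (hq : IsLaw q) :
    push (prodLaw p q) Prod.fst = p := by
  funext a
  rw [push, sum_filter, Fintype.sum_prod_type, sum_eq_single a]
  · simp [prodLaw, ← mul_sum, hq.sum_eq]
  · intro b _ hb; simp [hb]
  · intro h; exact absurd (mem_univ a) h

theorem push_snd_prodLaw [DecidableEq β] {p : α → ℝ} (hp : IsLaw p) (q : β → ℝ) :
    push (prodLaw p q) Prod.snd = q := by
  funext b
  rw [push, sum_filter, Fintype.sum_prod_type_right, sum_eq_single b]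
  · simp [prodLaw, ← sum_mul, hp.sum_eq]
  · intro c _ hc; simp [hc]
  · intro h; exact absurd (mem_univ b) h

theorem entropy_prodLaw {p : α → ℝ} {q : β → ℝ} (hp : IsLaw p) (hq : IsLaw q) :
    entropy (prodLaw p q) = entropy p + entropy q := by
  simp only [entropy, prodLaw, Fintype.sum_prod_type, negMulLog_mul, sum_add_distrib, ← mul_sum,
    ← sum_mul, hp.sum_eq, hq.sum_eq, one_mul]

theorem ent_bridge [DecidableEq β] {p : α → ℝ} (hp : IsLaw p) (f : α → β) :
    entropy (push p f) = LogChowla.ent (univ.filter fun a => 0 < p a) p f := by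
  rw [LogChowla.ent_eq_sum]
  refine sum_congr rfl fun b _ => congrArg negMulLog ?_
  rw [LogChowla.law, filter_filter, push]
  refine (sum_subset (fun a ha => ?_) fun a ha h => ?_).symm
  · exact mem_filter.2 ⟨mem_univ a, (mem_filter.1 ha).2.2⟩
  · refine le_antisymm (not_lt.1 fun h' => h (mem_filter.2 ⟨mem_univ a, h', (mem_filter.1 ha).2⟩))
      (hp.nonneg a)

theorem isWeights_support {p : α → ℝ} (hp : IsLaw p) :
    LogChowla.IsWeights (univ.filter fun a => 0 < p a) p := by
  refine ⟨fun a ha => (mem_filter.1 ha).2, ?_⟩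
  rw [← hp.sum_eq]
  exact sum_subset (subset_univ _) fun a ha h =>
    le_antisymm (not_lt.1 fun h' => h (mem_filter.2 ⟨ha, h'⟩)) (hp.nonneg a)

theorem entropy_comp_le [DecidableEq β] [DecidableEq γ] {p : α → ℝ} (hp : IsLaw p) (f : α → β)
    (g : β → γ) : entropy (push p fun a => g (f a)) ≤ entropy (push p f) := by
  rw [ent_bridge hp, ent_bridge hp]
  exact LogChowla.ent_comp_le (isWeights_support hp) f g

/-- **Submodularity.** -/
theorem entropy_submodular [DecidableEq β] [DecidableEq γ] [DecidableEq δ] {p : α → ℝ}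
    (hp : IsLaw p) (A : α → β) (B : α → γ) (C : α → δ) :
    entropy (push p fun a => (A a, B a, C a)) + entropy (push p C) ≤
      entropy (push p fun a => (A a, C a)) + entropy (push p fun a => (B a, C a)) := by
  simp only [ent_bridge hp]
  exact LogChowla.ent_submodular (isWeights_support hp) A B C

theorem entropy_pair_le [DecidableEq β] [DecidableEq γ] {p : α → ℝ} (hp : IsLaw p) (A : α → β)
    (B : α → γ) :
    entropy (push p fun a => (A a, B a)) ≤ entropy (push p A) + entropy (push p B) := by
  have h := entropy_submodular hp A B fun _ => ()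
  have h0 : entropy (push p fun _ => ()) = 0 := by simp [entropy, push, hp.sum_eq]
  have e1 : entropy (push p fun a => (A a, ())) = entropy (push p A) := by
    rw [← push_push p A fun b => (b, ())]
    exact entropy_push_injective _ fun x y h => congrArg Prod.fst h
  have e2 : entropy (push p fun a => (B a, ())) = entropy (push p B) := by
    rw [← push_push p B fun b => (b, ())]
    exact entropy_push_injective _ fun x y h => congrArg Prod.fst h
  have e3 : entropy (push p fun a => (A a, B a, ())) = entropy (push p fun a => (A a, B a)) := by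
    rw [← push_push p (fun a => (A a, B a)) fun b => (b.1, b.2, ())]
    exact entropy_push_injective _ fun x y h => by
      simp only [Prod.mk.injEq, and_true] at h
      exact Prod.ext h.1 h.2
  linarith

theorem push_snd_eq [DecidableEq γ] (r : α × γ → ℝ) (c : γ) :
    push r Prod.snd c = ∑ a, r (a, c) := by
  rw [push, sum_filter, Fintype.sum_prod_type]
  simp

theorem IsLaw.slice {r : α × γ → ℝ} (hr : IsLaw r) {c : γ} (hc : ∑ a, r (a, c) ≠ 0) :
    IsLaw (slice r c) :=
  ⟨fun a => div_nonneg (hr.nonneg _) (sum_nonneg fun _ _ => hr.nonneg _), by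
    simp only [MartonPFR.slice, ← sum_div, div_self hc]⟩

theorem mul_slice {r : α × γ → ℝ} (hr : IsLaw r) (c : γ) (a : α) :
    (∑ a', r (a', c)) * slice r c a = r (a, c) := by
  rcases eq_or_ne (∑ a', r (a', c)) 0 with h | h
  · rw [h, zero_mul]
    exact ((sum_eq_zero_iff_of_nonneg fun a' _ => hr.nonneg (a', c)).1 h a (mem_univ a)).symm
  · exact mul_div_cancel₀ _ h

/-- **The chain rule.** -/
theorem sum_mul_entropy_slice [DecidableEq γ] {r : α × γ → ℝ} (hr : IsLaw r) :
    ∑ c, push r Prod.snd c * entropy (slice r c) = entropy r - entropy (push r Prod.snd) := by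
  rw [eq_sub_iff_add_eq, entropy, ← sum_add_distrib]
  refine (sum_congr rfl fun c _ => ?_).trans (Fintype.sum_prod_type_right _).symm
  rw [push_snd_eq, entropy, mul_sum]
  obtain ⟨m, hm⟩ : ∃ m, m = ∑ a, r (a, c) := ⟨_, rfl⟩
  rw [← hm]
  rcases eq_or_ne m 0 with h | h
  · simp [h, (fun a => (sum_eq_zero_iff_of_nonneg fun a' _ => hr.nonneg (a', c)).1
      (hm.symm.trans h) a (mem_univ a) : ∀ a, r (a, c) = 0)]
  have hs : ∑ a, slice r c a = 1 := (hr.slice (hm ▸ h)).sum_eq
  calc ∑ a, m * negMulLog (slice r c a) + negMulLog m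
      = ∑ a, (slice r c a * negMulLog m + m * negMulLog (slice r c a)) := by
        rw [sum_add_distrib, ← sum_mul, hs, one_mul, add_comm]
    _ = ∑ a, negMulLog (r (a, c)) := sum_congr rfl fun a _ => by
        rw [← negMulLog_mul, hm, mul_slice hr]

end FA.MartonPFR
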