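import Fermat.Agent.MartonPFR.Distance
import Mathlib.Algebra.Module.ZMod
import Mathlib.Analysis.Convex.StdSimplex
import Mathlib.Analysis.SpecialFunctions.Log.NegMulLog

/-!
# Minimizers of the functional of Gowers, Green, Manners and Tao

In a group of exponent two a minimizer of `d[X;Y] + (d[X₀;X] + d[Y₀;Y]) / 9` has `d[X;Y] = 0`: by
the fibring identity two conditional mutual informations of `X₁ + X₂, X₁' + X₂, X₁ + X₁'` are
small, and the Balog–Szemerédi–Gowers lemma then gives a better pair.
-/

set_option autoImplicit false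

noncomputable section

namespace FA.MartonPFR

open Finset Real

variable {G γ γ' : Type*} [Fintype G] [DecidableEq G] [AddCommGroup G]
  [Fintype γ] [DecidableEq γ] [Fintype γ'] [DecidableEq γ']

/-- The functional to minimise. -/
def tau (p₀ q₀ p q : G → ℝ) : ℝ := rdist p q + (rdist p₀ p + rdist q₀ q) / 9

/-- A minimizer. -/
structure IsMinimizer (p₀ q₀ p q : G → ℝ) : Prop where
  law₀ : IsLaw p₀
  law₀' : IsLaw q₀
  law : IsLaw p
  law' : IsLaw q
  le : ∀ p' q', IsLaw p' → IsLaw q' → tau p₀ q₀ p q ≤ tau p₀ q₀ p' q'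

theorem exists_minimizer {p₀ q₀ : G → ℝ} (hp : IsLaw p₀) (hq : IsLaw q₀) :
    ∃ p q, IsMinimizer p₀ q₀ p q := by
  have hcpt := (isCompact_stdSimplex (𝕜 := ℝ) G).prod (isCompact_stdSimplex (𝕜 := ℝ) G)
  have hc : Continuous fun z : (G → ℝ) × (G → ℝ) => tau p₀ q₀ z.1 z.2 := by
    simp only [tau, rdist, conv, push, prodLaw, entropy]
    fun_prop
  obtain ⟨z, ⟨hz1, hz2⟩, hmin⟩ := hcpt.exists_isMinOn
    ⟨(p₀, q₀), ⟨hp.nonneg, hp.sum_eq⟩, hq.nonneg, hq.sum_eq⟩ hc.continuousOn
  exact ⟨z.1, z.2, hp, hq, ⟨hz1.1, hz1.2⟩, ⟨hz2.1, hz2.2⟩,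
    fun p' q' hp' hq' => hmin (a := (p', q')) ⟨⟨hp'.nonneg, hp'.sum_eq⟩, hq'.nonneg, hq'.sum_eq⟩⟩

variable {p₀ q₀ p q : G → ℝ}

theorem IsMinimizer.cdist₂_le (h : IsMinimizer p₀ q₀ p q) {r : G × γ → ℝ} {r' : G × γ' → ℝ}
    (hr : IsLaw r) (hr' : IsLaw r') :
    tau p₀ q₀ p q ≤ cdist₂ r r' + (cdist p₀ r + cdist q₀ r') / 9 := by
  rw [← sum_mul_rdist_slice₂ hr hr', ← sum_mul_rdist_slice h.law₀ hr,
    ← sum_mul_rdist_slice h.law₀' hr']
  have hm := (hr.push Prod.snd).sum_eq
  have hm' := (hr'.push Prod.snd).sum_eq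
  calc tau p₀ q₀ p q
      = ∑ c, ∑ c', push r Prod.snd c * push r' Prod.snd c' * tau p₀ q₀ p q := by
        simp only [← sum_mul, ← mul_sum, hm', mul_one, hm, one_mul]
    _ ≤ ∑ c, ∑ c', push r Prod.snd c * push r' Prod.snd c' *
          tau p₀ q₀ (slice r c) (slice r' c') := sum_le_sum fun c _ => sum_le_sum fun c' _ => by
        rcases eq_or_ne (push r Prod.snd c) 0 with e | e
        · simp [e]
        rcases eq_or_ne (push r' Prod.snd c') 0 with e' | e'
        · simp [e']
        exact mul_le_mul_of_nonneg_left (h.le _ _ (hr.slice (push_snd_eq r c ▸ e))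
          (hr'.slice (push_snd_eq r' c' ▸ e')))
          (mul_nonneg ((hr.push _).nonneg _) ((hr'.push _).nonneg _))
    _ = _ := by
        have hA : ∀ F : γ → ℝ, ∑ c, ∑ c', push r Prod.snd c * push r' Prod.snd c' * F c =
            ∑ c, push r Prod.snd c * F c := fun F => sum_congr rfl fun c _ => by
          simp only [mul_right_comm _ _ (F c), ← mul_sum, hm', mul_one]
        have hB : ∀ F : γ' → ℝ, ∑ c, ∑ c', push r Prod.snd c * push r' Prod.snd c' * F c' =
            ∑ c', push r' Prod.snd c' * F c' := fun F => by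
          simp only [mul_assoc, ← mul_sum, ← sum_mul, hm, one_mul]
        simp only [tau, mul_add, sum_add_distrib, add_div, ← mul_div_assoc, ← sum_div, hA, hB]

theorem IsMinimizer.cdist_self_le (h : IsMinimizer p₀ q₀ p q) {r : G × γ → ℝ} (hr : IsLaw r) :
    tau p₀ q₀ p q ≤ ∑ c, push r Prod.snd c * rdist (slice r c) (slice r c) +
      (cdist p₀ r + cdist q₀ r) / 9 := by
  rw [← sum_mul_rdist_slice h.law₀ hr, ← sum_mul_rdist_slice h.law₀' hr, ← sum_add_distrib,
    sum_div, ← sum_add_distrib]
  calc tau p₀ q₀ p q = ∑ c, push r Prod.snd c * tau p₀ q₀ p q := by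
        rw [← sum_mul, (hr.push Prod.snd).sum_eq, one_mul]
    _ ≤ ∑ c, push r Prod.snd c * tau p₀ q₀ (slice r c) (slice r c) := sum_le_sum fun c _ => by
        rcases eq_or_ne (push r Prod.snd c) 0 with e | e
        · simp [e]
        exact mul_le_mul_of_nonneg_left (h.le _ _ (hr.slice (push_snd_eq r c ▸ e))
          (hr.slice (push_snd_eq r c ▸ e))) ((hr.push _).nonneg _)
    _ = _ := sum_congr rfl fun c _ => by rw [tau]; ring

/-- One ordering of the three sums. -/
theorem IsMinimizer.endgame_step (h : IsMinimizer p₀ q₀ p q) {α : Type*} [Fintype α] {μ : α → ℝ}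
    (hμ : IsLaw μ) (X Y Z S : α → G) (hY : ∀ a, X a + Z a = Y a) :
    tau p₀ q₀ p q ≤
      3 * (entropy (push μ fun a => (X a, S a)) + entropy (push μ fun a => (Y a, S a)) -
          entropy (push μ S) - entropy (push μ fun a => (X a, Z a, S a))) +
        2 * entropy (push μ fun a => (Z a, S a)) - entropy (push μ fun a => (X a, S a)) -
          entropy (push μ fun a => (Y a, S a)) +
        (cdist p₀ (push μ fun a => (X a, S a)) + cdist q₀ (push μ fun a => (X a, S a)) +
          (entropy (push μ fun a => (X a, S a)) + entropy (push μ fun a => (Z a, S a)) -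
            entropy (push μ S) - entropy (push μ fun a => (X a, Z a, S a)))) / 9 := by
  obtain ⟨r, hr⟩ : ∃ r, r = push μ fun a => (X a, Z a, S a) := ⟨_, rfl⟩
  have hrlaw : IsLaw r := hr ▸ hμ.push _
  have h0 := h.cdist_self_le hrlaw
  have hb := entropic_bsg hrlaw
  have m1 : (push r fun x => (x.1, x.2.2)) = push μ fun a => (X a, S a) := by rw [hr, push_push]
  have m2 : (push r fun x => (x.1 + x.2.1, x.2.2)) = push μ fun a => (Y a, S a) := by
    rw [hr, push_push]; simp only [hY]
  have m3 : (push r fun x => x.2.2) = push μ S := by rw [hr, push_push]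
  have m4 : push r Prod.snd = push μ fun a => (Z a, S a) := by rw [hr, push_push]
  have hc : ∀ p' : G → ℝ, IsLaw p' → cdist p' r ≤ cdist p' (push μ fun a => (X a, S a)) +
      (entropy (push μ fun a => (X a, S a)) + entropy (push μ fun a => (Z a, S a)) -
        entropy (push μ S) - entropy r) / 2 := fun p' hp' => by
    have hs := entropy_submodular (hp'.prodLaw hrlaw) (fun x => x.1 + x.2.1) (fun x => x.2.2.1)
      fun x => x.2.2.2
    have e1 : (push (prodLaw p' r) fun x => x.2.2.2) = push μ S := by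
      rw [← push_push (prodLaw p' r) Prod.snd fun x => x.2.2, push_snd_prodLaw hp', m3]
    have e2 : (push (prodLaw p' r) fun x => (x.1 + x.2.1, x.2.2.2)) =
        push (prodLaw p' (push μ fun a => (X a, S a))) fun x => (x.1 + x.2.1, x.2.2) := by
      conv_rhs => rw [← m1, ← push_id p', ← push_prodLaw, push_push]
    have e3 : (push (prodLaw p' r) fun x => (x.2.2.1, x.2.2.2)) = push μ fun a => (Z a, S a) := by
      rw [← m4, ← push_push (prodLaw p' r) Prod.snd Prod.snd, push_snd_prodLaw hp']
    simp only [Prod.mk.eta] at hs e3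
    rw [e1, e2, e3] at hs
    have e4 : push (push μ fun a => (X a, S a)) Prod.snd = push μ S := push_push _ _ _
    simp only [cdist, m4, e4]
    linarith
  have hcp := hc p₀ h.law₀
  have hcq := hc q₀ h.law₀'
  rw [m1, m2, m3, m4] at hb
  rw [m4] at h0
  rw [hr] at hb hcp hcq h0
  linarith

/-- **The functional is minimised at distance zero.** -/
theorem IsMinimizer.rdist_eq_zero [Module (ZMod 2) G] (h : IsMinimizer p₀ q₀ p q) :
    rdist p q = 0 := by
  have hp := h.law
  have hq := h.law'
  have hpq := hp.prodLaw hq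
  have hμ := hpq.prodLaw hpq
  obtain ⟨μ, hμdef⟩ : ∃ μ, μ = prodLaw (prodLaw p q) (prodLaw p q) := ⟨_, rfl⟩
  rw [← hμdef] at hμ
  have perm : ∀ σ : (G × G) × G × G → (G × G) × G × G, Function.Injective σ →
      ∀ ν : (G × G) × G × G → ℝ, (∀ x, ν (σ x) = μ x) → push μ σ = ν := fun σ hσ ν hν => by
    funext y
    obtain ⟨x, rfl⟩ := Finite.surjective_of_injective hσ y
    rw [push_injective_apply μ hσ, hν]
  have σ₁ : (push μ fun x => ((x.1.1, x.2.2), (x.1.2, x.2.1))) =
      prodLaw (prodLaw p q) (prodLaw q p) :=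
    perm _ (fun x y h => by simp only [Prod.mk.injEq] at h; grind) _ fun x => by
      simp only [hμdef, prodLaw]; ring
  have σ₂ : (push μ fun x => ((x.1.1, x.2.1), (x.1.2, x.2.2))) =
      prodLaw (prodLaw p p) (prodLaw q q) :=
    perm _ (fun x y h => by simp only [Prod.mk.injEq] at h; grind) _ fun x => by
      simp only [hμdef, prodLaw]; ring
  have σ₃ : (push μ fun x => ((x.2.1, x.1.2), (x.1.1, x.2.2))) = μ :=
    perm _ (fun x y h => by simp only [Prod.mk.injEq] at h; grind) _ fun x => by
      simp only [hμdef, prodLaw]; ring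
  obtain ⟨U, hU⟩ : ∃ U : (G × G) × G × G → G, U = fun x => x.1.1 + x.1.2 := ⟨_, rfl⟩
  obtain ⟨V, hV⟩ : ∃ V : (G × G) × G × G → G, V = fun x => x.2.1 + x.1.2 := ⟨_, rfl⟩
  obtain ⟨W, hW⟩ : ∃ W : (G × G) × G × G → G, W = fun x => x.1.1 + x.2.1 := ⟨_, rfl⟩
  obtain ⟨W', hW'⟩ : ∃ W' : (G × G) × G × G → G, W' = fun x => x.1.2 + x.2.2 := ⟨_, rfl⟩
  obtain ⟨S, hS⟩ : ∃ S : (G × G) × G × G → G, S = fun x => x.1.1 + x.1.2 + (x.2.1 + x.2.2) :=
    ⟨_, rfl⟩
  -- the laws of the sums
  have lU : push μ U = conv p q := by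
    rw [hU, hμdef, ← push_push _ Prod.fst fun y : G × G => y.1 + y.2, push_fst_prodLaw _ hpq]; rfl
  have lV : push μ V = conv p q := by
    conv_rhs => rw [← lU, ← σ₃, push_push]
    simp only [hU, hV]
  have lW : push μ W = conv p p := by
    rw [hW, ← push_push μ (fun x => ((x.1.1, x.2.1), (x.1.2, x.2.2))) fun y => y.1.1 + y.1.2, σ₂,
      ← push_push _ Prod.fst fun y : G × G => y.1 + y.2, push_fst_prodLaw _ (hq.prodLaw hq)]
    rfl
  have lW' : push μ W' = conv q q := by
    rw [hW', ← push_push μ (fun x => ((x.1.1, x.2.1), (x.1.2, x.2.2))) fun y => y.2.1 + y.2.2, σ₂,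
      ← push_push _ Prod.snd fun y : G × G => y.1 + y.2, push_snd_prodLaw (hp.prodLaw hp)]
    rfl
  have lS : push μ S = conv (conv p q) (conv p q) := by
    rw [hS, hμdef]
    exact (conv_push _ _ (fun y : G × G => y.1 + y.2) fun y : G × G => y.1 + y.2).symm
  have lS₂ : push μ S = conv (conv p p) (conv q q) := by
    rw [show conv (conv p p) (conv q q) = push (prodLaw (prodLaw p p) (prodLaw q q))
      (fun x => x.1.1 + x.1.2 + (x.2.1 + x.2.2)) from
        conv_push _ _ (fun y : G × G => y.1 + y.2) fun y : G × G => y.1 + y.2, ← σ₂, push_push, hS]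
    simp only [add_add_add_comm]
  -- joint entropies
  have hshift : Function.Injective fun y : G × G => (y.1, y.1 + y.2) := fun a b h => by
    simp only [Prod.mk.injEq] at h
    exact Prod.ext h.1 (add_left_cancel (h.1 ▸ h.2))
  have eUS : entropy (push μ fun x => (U x, S x)) =
      entropy (conv p q) + entropy (conv p q) := by
    rw [← entropy_prodLaw (hp.conv hq) (hp.conv hq),
      show prodLaw (conv p q) (conv p q) = push μ fun x => (x.1.1 + x.1.2, x.2.1 + x.2.2) by
        rw [hμdef]
        exact (push_prodLaw _ _ (fun y : G × G => y.1 + y.2) fun y : G × G => y.1 + y.2).symm,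
      ← entropy_push_injective (push μ fun x => (x.1.1 + x.1.2, x.2.1 + x.2.2)) hshift, push_push]
    simp only [hU, hS]
  have eVS : entropy (push μ fun x => (V x, S x)) =
      entropy (conv p q) + entropy (conv p q) := by
    rw [← eUS]
    conv_rhs => rw [← σ₃, push_push]
    simp only [hU, hV, hS]
    refine congrArg (fun f => entropy (push μ f)) (funext fun x => Prod.ext rfl ?_)
    simp only; abel
  have eWW : push μ (fun x => (W x, W' x)) = prodLaw (conv p p) (conv q q) := by
    rw [show prodLaw (conv p p) (conv q q) = push (prodLaw (prodLaw p p) (prodLaw q q))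
      fun x => (x.1.1 + x.1.2, x.2.1 + x.2.2) from
        (push_prodLaw _ _ (fun y : G × G => y.1 + y.2) fun y : G × G => y.1 + y.2).symm, ← σ₂,
      push_push, hW, hW']
  have eWS : entropy (push μ fun x => (W x, S x)) =
      entropy (conv p p) + entropy (conv q q) := by
    rw [← entropy_prodLaw (hp.conv hp) (hq.conv hq), ← eWW,
      ← entropy_push_injective (push μ fun x => (W x, W' x)) hshift, push_push]
    simp only [hW, hW', hS, add_add_add_comm]
  have eW'S : entropy (push μ fun x => (W' x, S x)) =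
      entropy (conv p p) + entropy (conv q q) := by
    rw [← entropy_prodLaw (hp.conv hp) (hq.conv hq), ← eWW,
      ← entropy_push_injective (push μ fun x => (W x, W' x))
        (f := fun y : G × G => (y.2, y.1 + y.2)) (fun a b h => by
          simp only [Prod.mk.injEq] at h
          exact Prod.ext (add_right_cancel (h.1 ▸ h.2)) h.1), push_push]
    simp only [hW, hW', hS, add_add_add_comm]
  -- the fibrings
  have hs₁ : Function.Injective fun y : G × G => (y.1, y.1 + y.2) := hshift
  obtain ⟨r, hr⟩ : ∃ r, r = push (prodLaw p q) fun y => (y.1, y.1 + y.2) := ⟨_, rfl⟩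
  obtain ⟨r', hr'⟩ : ∃ r', r' = push (prodLaw q p) fun y => (y.1, y.1 + y.2) := ⟨_, rfl⟩
  obtain ⟨t, ht⟩ : ∃ t, t = push (prodLaw p p) fun y => (y.1, y.1 + y.2) := ⟨_, rfl⟩
  obtain ⟨t', ht'⟩ : ∃ t', t' = push (prodLaw q q) fun y => (y.1, y.1 + y.2) := ⟨_, rfl⟩
  have hjoint : ∀ {a b : G → ℝ}, IsLaw a → IsLaw b →
      entropy (push (prodLaw a b) fun y => (y.1, y.1 + y.2)) = entropy a + entropy b ∧
      push (push (prodLaw a b) fun y => (y.1, y.1 + y.2)) Prod.snd = conv a b ∧
      push (push (prodLaw a b) fun y => (y.1, y.1 + y.2)) Prod.fst = a := fun ha hb =>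
    ⟨by rw [entropy_push_injective _ hs₁, entropy_prodLaw ha hb], push_push _ _ _,
      (push_push _ _ _).trans (push_fst_prodLaw _ hb)⟩
  obtain ⟨hr1, hr2, hr3⟩ := hr ▸ hjoint hp hq
  obtain ⟨hr1', hr2', hr3'⟩ := hr' ▸ hjoint hq hp
  obtain ⟨ht1, ht2, ht3⟩ := ht ▸ hjoint hp hp
  obtain ⟨ht1', ht2', ht3'⟩ := ht' ▸ hjoint hq hq
  have eT : entropy (push (prodLaw r r') fun x => (x.1.1 + x.2.1, (x.1.2, x.2.2))) =
      entropy (push μ fun x => (U x, V x, S x)) := by
    rw [hr, hr', ← push_prodLaw, push_push, ← σ₁, push_push,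
      ← entropy_push_injective (push μ fun x => (U x, V x, S x))
        (f := fun y : G × G × G => (y.1, y.2.2 - y.2.1, y.2.1)) (fun a b h => by
          simp only [Prod.mk.injEq] at h
          obtain ⟨h1, h2, h3⟩ := h
          rw [h3] at h2
          exact Prod.ext h1 (Prod.ext h3 (sub_left_inj.1 h2))), push_push]
    refine congrArg (fun f => entropy (push μ f)) (funext fun x => ?_)
    simp only [hU, hV, hS, Prod.mk.injEq, true_and]
    constructor <;> abel
  have eT' : entropy (push (prodLaw t t') fun x => (x.1.1 + x.2.1, (x.1.2, x.2.2))) =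
      entropy (push μ fun x => (U x, W x, S x)) := by
    rw [ht, ht', ← push_prodLaw, push_push, ← σ₂, push_push,
      ← entropy_push_injective (push μ fun x => (U x, W x, S x))
        (f := fun y : G × G × G => (y.1, y.2.1, y.2.2 - y.2.1)) (fun a b h => by
          simp only [Prod.mk.injEq] at h
          obtain ⟨h1, h2, h3⟩ := h
          rw [h2] at h3
          exact Prod.ext h1 (Prod.ext h2 (sub_left_inj.1 h3))), push_push]
    refine congrArg (fun f => entropy (push μ f)) (funext fun x => ?_)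
    simp only [hU, hW, hS, Prod.mk.injEq, true_and]
    abel
  have eVW : entropy (push μ fun x => (V x, W x, S x)) =
      entropy (push μ fun x => (U x, W x, S x)) := by
    conv_rhs => rw [← σ₃, push_push]
    simp only [hU, hV, hW, hS]
    refine congrArg (fun f => entropy (push μ f)) (funext fun x => ?_)
    simp only [Prod.mk.injEq, true_and]
    constructor <;> abel
  -- the bounds on conditioned distances to the initial laws
  have b1 := rdist_conv_le h.law₀ hp hq
  have b2 := rdist_conv_le h.law₀' hq hp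
  have b3 := rdist_conv_le h.law₀ hp hp
  have b4 := rdist_conv_le h.law₀' hq hq
  rw [conv_comm q p] at b2
  have mk : ∀ (p' : G → ℝ), IsLaw p' → ∀ X : (G × G) × G × G → G,
      cdist p' (push μ fun x => (X x, S x)) ≤ rdist p' (push μ X) +
        (entropy (push μ X) + entropy (push μ S) - entropy (push μ fun x => (X x, S x))) / 2 :=
    fun p' hp' X => by
    have := cdist_le hp' (hμ.push fun x => (X x, S x))
    rwa [push_push, push_push] at this
  have cU := mk p₀ h.law₀ U
  have cU' := mk q₀ h.law₀' U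
  have cV := mk p₀ h.law₀ V
  have cV' := mk q₀ h.law₀' V
  have cW := mk p₀ h.law₀ W
  have cW' := mk q₀ h.law₀' W'
  have eshear : cdist q₀ (push μ fun x => (W x, S x)) = cdist q₀ (push μ fun x => (W' x, S x)) := by
    rw [← cdist_shear (p := q₀) (r := push μ fun x => (W x, S x)), push_push]
    refine congrArg (fun f => cdist q₀ (push μ f)) (funext fun x => Prod.ext ?_ rfl)
    simp only [hW, hW', hS]
    linear_combination (norm := abel) ZModModule.add_self x.1.1 + ZModModule.add_self x.2.1
  -- minimality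
  have first := h.le _ _ (hp.conv hq) (hq.conv hp)
  have second := h.le _ _ (hp.conv hp) (hq.conv hq)
  have first' := h.cdist₂_le (r := r) (r' := r') (hr ▸ (hp.prodLaw hq).push _)
    (hr' ▸ (hq.prodLaw hp).push _)
  have second' := h.cdist₂_le (r := t) (r' := t') (ht ▸ (hp.prodLaw hp).push _)
    (ht' ▸ (hq.prodLaw hq).push _)
  have cr := cdist_le h.law₀ (r := r) (hr ▸ (hp.prodLaw hq).push _)
  have cr' := cdist_le h.law₀' (r := r') (hr' ▸ (hq.prodLaw hp).push _)
  have ct := cdist_le h.law₀ (r := t) (ht ▸ (hp.prodLaw hp).push _)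
  have ct' := cdist_le h.law₀' (r := t') (ht' ▸ (hq.prodLaw hq).push _)
  rw [hr1, hr2, hr3] at cr
  rw [hr1', hr2', hr3', conv_comm q p] at cr'
  rw [ht1, ht2, ht3] at ct
  rw [ht1', ht2', ht3'] at ct'
  simp only [tau, cdist₂, eT, hr1, hr2, hr1', hr2', conv_comm q p] at first'
  simp only [tau, cdist₂, eT', ht1, ht2, ht1', ht2'] at second'
  simp only [tau, conv_comm q p] at first
  simp only [tau] at second
  rw [show rdist (conv p q) (conv p q) = entropy (push μ S) - entropy (conv p q) by
    rw [rdist, lS]; ring] at first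
  rw [show rdist (conv p p) (conv q q) =
      entropy (push μ S) - entropy (conv p p) / 2 - entropy (conv q q) / 2 by
    rw [rdist, lS₂]] at second
  have hUW : ∀ x, U x + W x = V x := fun x => by
    simp only [hU, hV, hW]
    rw [add_add_add_comm, ZModModule.add_self, zero_add, add_comm]
  have hVW : ∀ x, V x + W x = U x := fun x => by
    rw [← hUW x, add_assoc, ZModModule.add_self, add_zero]
  have hUV : ∀ x, U x + V x = W x := fun x => by
    rw [← hUW x, ← add_assoc, ZModModule.add_self, zero_add]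
  -- the six orderings
  have g1 := h.endgame_step hμ U V W S hUW
  have g2 := h.endgame_step hμ V U W S hVW
  have g3 := h.endgame_step hμ U W V S hUV
  have g4 := h.endgame_step hμ V W U S fun x => by rw [add_comm]; exact hUV x
  have g5 := h.endgame_step hμ W U V S fun x => by rw [add_comm]; exact hVW x
  have g6 := h.endgame_step hμ W V U S fun x => by rw [add_comm]; exact hUW x
  have perm2 : ∀ X Y : (G × G) × G × G → G, entropy (push μ fun x => (Y x, X x, S x)) =
      entropy (push μ fun x => (X x, Y x, S x)) := fun X Y => by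
    rw [← entropy_push_injective (push μ fun x => (X x, Y x, S x))
      (f := fun y : G × G × G => (y.2.1, y.1, y.2.2)) (fun a b h => by
        simp only [Prod.mk.injEq] at h
        exact Prod.ext h.2.1 (Prod.ext h.1 h.2.2)), push_push]
  rw [perm2 U V] at g4
  rw [perm2 V W] at g5
  rw [perm2 U W] at g6
  simp only [tau, eUS, eVS, eWS, eW'S, eVW, eshear, lU, lV, lW, lW']
    at g1 g2 g3 g4 g5 g6 cU cU' cV cV' cW cW'
  refine le_antisymm ?_ (rdist_nonneg hp hq)
  have hk : rdist p q = entropy (conv p q) - entropy p / 2 - entropy q / 2 := rfl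
  linarith

end FA.MartonPFR
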