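import Fermat.Agent.MartonPFR.Minimizer
import Mathlib.Analysis.Convex.Jensen
import Mathlib.Combinatorics.Additive.RuzsaCovering
import Mathlib.GroupTheory.Coset.Card
import Mathlib.Algebra.Group.Subgroup.Finite
import Mathlib.Analysis.SpecialFunctions.Pow.Real

/-!
# Laws at distance zero and the polynomial Freiman–Ruzsa theorem

Laws at distance zero are uniform on cosets of one subgroup, and Ruzsa's covering lemma turns the
entropic theorem into the statement for sets.
-/

set_option autoImplicit false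

noncomputable section

namespace FA.MartonPFR

open Finset Real
open scoped Pointwise

variable {G : Type*} [Fintype G] [DecidableEq G] [AddCommGroup G] [Module (ZMod 2) G]

theorem conv_apply (p q : G → ℝ) (z : G) : conv p q z = ∑ x, p x * q (z + x) := by
  rw [conv, push, sum_filter, Fintype.sum_prod_type]
  refine sum_congr rfl fun x _ => ?_
  rw [sum_eq_single (z + x)]
  · rw [if_pos (show x + (z + x) = z by
      linear_combination (norm := abel) ZModModule.add_self x)]
    rfl
  · intro y _ hy
    rw [if_neg]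
    intro (h : x + y = z)
    apply hy
    rw [← h]
    linear_combination (norm := abel) - ZModModule.add_self x
  · simp

omit [DecidableEq G] [Module (ZMod 2) G] in
theorem sum_negMulLog_shift (p : G → ℝ) (x : G) :
    ∑ z, negMulLog (p (z + x)) = entropy p :=
  Fintype.sum_equiv (Equiv.addRight x) _ (fun z => negMulLog (p z)) fun _ => rfl

/-- Equality in `H[X + Y] ≥ H[X]`: shifts of `X` by the values of `Y` agree. -/
theorem shift_eq_of_entropy_conv_eq {p q : G → ℝ} (hp : IsLaw p) (hq : IsLaw q)
    (h : entropy (conv q p) = entropy p) {x y : G} (hx : q x ≠ 0) (hy : q y ≠ 0) (z : G) :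
    p (z + x) = p (z + y) := by
  have hle : ∀ z, ∑ i, q i • negMulLog (p (z + i)) ≤ negMulLog (conv q p z) := fun z => by
    rw [conv_apply]
    exact concaveOn_negMulLog.le_map_sum (fun i _ => hq.nonneg i) hq.sum_eq
      fun i _ => hp.nonneg _
  have heq : ∀ z ∈ (univ : Finset G),
      ∑ i, q i • negMulLog (p (z + i)) = negMulLog (conv q p z) := by
    refine (sum_eq_sum_iff_of_le fun z _ => hle z).1 ?_
    rw [sum_comm]
    simp only [smul_eq_mul, ← mul_sum, sum_negMulLog_shift, ← sum_mul, hq.sum_eq, one_mul]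
    exact h.symm
  have key := (strictConcaveOn_negMulLog.map_sum_eq_iff' (t := univ) (w := q)
    (p := fun i => p (z + i)) (fun i _ => hq.nonneg i) hq.sum_eq (fun i _ => hp.nonneg _)).1 ?_
  · exact (key x (mem_univ x) hx).trans (key y (mem_univ y) hy).symm
  · have e := (heq z (mem_univ z)).symm
    rw [conv_apply] at e
    simpa only [smul_eq_mul] using e

/-- The uniform law of the coset `x + H`. -/
def cosetLaw (H : AddSubgroup G) [DecidablePred (· ∈ H)] (x w : G) : ℝ :=
  if w + x ∈ H then ((Nat.card H : ℝ))⁻¹ else 0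

/-- The periods of a law. -/
def periods (p : G → ℝ) : AddSubgroup G where
  carrier := {h | ∀ w, p (w + h) = p w}
  zero_mem' w := by rw [add_zero]
  add_mem' {a b} ha hb w := by rw [← add_assoc, hb, ha]
  neg_mem' {a} ha w := by rw [ZModModule.neg_eq_self]; exact ha w

omit [Module (ZMod 2) G] in
theorem rdist_self_eq_zero {p q : G → ℝ} (hp : IsLaw p) (hq : IsLaw q) (h : rdist p q = 0) :
    rdist p p = 0 := by
  have h1 := rdist_triangle hp hq hp
  rw [rdist_comm q p, h] at h1
  exact le_antisymm (by linarith) (rdist_nonneg hp hp)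

theorem eq_cosetLaw {p : G → ℝ} (hp : IsLaw p) (h : rdist p p = 0) [DecidablePred (· ∈ periods p)]
    {x₀ : G} (hx₀ : p x₀ ≠ 0) : p = cosetLaw (periods p) x₀ := by
  have he : entropy (conv p p) = entropy p := by rw [rdist] at h; linarith
  have hper : ∀ w, p w ≠ 0 → w + x₀ ∈ periods p := fun w hw v => by
    have := shift_eq_of_entropy_conv_eq hp hp he hw hx₀ (v + x₀)
    rw [add_assoc v x₀ x₀, ZModModule.add_self, add_zero] at this
    rw [← this]
    congr 1
    abel
  have hval : ∀ w, w + x₀ ∈ periods p → p w = p x₀ := fun w hw => by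
    rw [← hw x₀]
    congr 1
    linear_combination (norm := abel) - ZModModule.add_self x₀
  obtain ⟨f, hf⟩ : ∃ f : G → ℝ, f = fun w => if w + x₀ ∈ periods p then p x₀ else 0 := ⟨_, rfl⟩
  have hpf : p = f := funext fun w => by
    simp only [hf]
    split_ifs with hw
    · exact hval w hw
    · by_contra hne
      exact hw (hper w hne)
  have hsum : p x₀ * Nat.card (periods p) = 1 := by
    rw [← hp.sum_eq, sum_congr rfl (g := f) fun w _ => congrFun hpf w]
    simp only [hf]
    rw [← sum_filter, sum_const, nsmul_eq_mul, mul_comm (p x₀)]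
    congr 2
    rw [Nat.card_eq_fintype_card, Fintype.card_subtype]
    exact card_equiv (Equiv.addRight x₀) fun a => by
      simp [add_assoc a x₀, ZModModule.add_self]
  funext w
  rw [congrFun hpf w, hf, cosetLaw, ← eq_inv_of_mul_eq_one_left hsum]

theorem periods_le {p q : G → ℝ} (hp : IsLaw p) (hq : IsLaw q) (h : rdist p q = 0) :
    periods q ≤ periods p := by
  classical
  have h1 := entropy_le_conv hp hq
  have h2 := entropy_le_conv hq hp
  rw [conv_comm q p] at h2
  rw [rdist] at h
  have he : entropy (conv q p) = entropy p := by rw [conv_comm]; linarith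
  obtain ⟨y, hy⟩ : ∃ y, q y ≠ 0 := by
    by_contra hc
    push Not at hc
    simpa [hc] using hq.sum_eq
  intro g hg v
  have := shift_eq_of_entropy_conv_eq hp hq he (x := y) (y := y + g) hy (by rw [hg y]; exact hy)
    (v + y)
  rw [add_assoc v y y, ZModModule.add_self, add_zero] at this
  rw [this]
  congr 1
  linear_combination (norm := abel) - ZModModule.add_self y

/-- **The entropic polynomial Freiman–Ruzsa theorem.** -/
theorem exists_cosetLaw_near {p₀ q₀ : G → ℝ} (hp₀ : IsLaw p₀) (hq₀ : IsLaw q₀) :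
    ∃ (H : AddSubgroup G) (_ : DecidablePred (· ∈ H)) (x y : G),
      rdist p₀ (cosetLaw H x) + rdist q₀ (cosetLaw H y) ≤ 11 * rdist p₀ q₀ := by
  classical
  obtain ⟨p, q, hmin⟩ := exists_minimizer hp₀ hq₀
  have h := hmin.rdist_eq_zero
  have hpp := rdist_self_eq_zero hmin.law hmin.law' h
  have h' : rdist q p = 0 := by rw [rdist_comm, h]
  have hqq := rdist_self_eq_zero hmin.law' hmin.law h'
  have heq : periods q = periods p :=
    le_antisymm (periods_le hmin.law hmin.law' h) (periods_le hmin.law' hmin.law h')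
  have hex : ∀ f : G → ℝ, IsLaw f → ∃ x, f x ≠ 0 := fun f hf => by
    by_contra hc
    push Not at hc
    simpa [hc] using hf.sum_eq
  obtain ⟨x, hx⟩ := hex p hmin.law
  obtain ⟨y, hy⟩ := hex q hmin.law'
  refine ⟨periods p, inferInstance, x, y, ?_⟩
  have ep := eq_cosetLaw hmin.law hpp hx
  have eq' : q = cosetLaw (periods p) y := by
    rw [eq_cosetLaw hmin.law' hqq hy]
    funext w
    simp only [cosetLaw, heq]
  rw [← ep, ← eq']
  have := hmin.le q₀ p₀ hq₀ hp₀
  simp only [tau, h, rdist_comm q₀ p₀] at this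
  linarith

omit [Module (ZMod 2) G] [AddCommGroup G] [DecidableEq G] in
theorem entropy_le_log_card {p : G → ℝ} (hp : IsLaw p) {S : Finset G}
    (hS : ∀ z, z ∉ S → p z = 0) : entropy p ≤ log #S := by
  have hsum : ∑ z ∈ S, p z = 1 :=
    (sum_subset (subset_univ S) fun z _ hz => hS z hz).trans hp.sum_eq
  have hne : S.Nonempty := nonempty_of_sum_ne_zero (hsum ▸ one_ne_zero)
  have hc : (0 : ℝ) < #S := Nat.cast_pos.2 hne.card_pos
  have h := concaveOn_negMulLog.le_map_sum (t := S) (w := fun _ => (#S : ℝ)⁻¹) (p := p)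
    (fun _ _ => by positivity) (by simp [hc.ne']) fun i _ => hp.nonneg i
  simp only [smul_eq_mul, ← mul_sum, hsum, mul_one] at h
  rw [negMulLog, log_inv, neg_mul_neg] at h
  rw [entropy, ← sum_subset (subset_univ S) fun z _ hz => by rw [hS z hz, negMulLog_zero]]
  exact le_of_mul_le_mul_left h (inv_pos.2 hc)

omit [Module (ZMod 2) G] [AddCommGroup G] [DecidableEq G] in
theorem exists_exp_neg_entropy_le {p : G → ℝ} (hp : IsLaw p) :
    ∃ z, exp (-entropy p) ≤ p z := by
  have hne : (univ : Finset G).Nonempty := nonempty_of_sum_ne_zero (hp.sum_eq ▸ one_ne_zero)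
  obtain ⟨z, -, hz⟩ := exists_max_image univ p hne
  have hpos : 0 < p z := by
    by_contra hle
    have := hp.sum_eq
    rw [sum_eq_zero fun i _ => le_antisymm ((hz i (mem_univ i)).trans (not_lt.1 hle))
      (hp.nonneg i)] at this
    exact zero_ne_one this
  refine ⟨z, le_of_le_of_eq (exp_le_exp.2 ?_) (exp_log hpos)⟩
  have : ∑ i, p i * -log (p z) ≤ entropy p := sum_le_sum fun i hi => by
    rcases (hp.nonneg i).eq_or_lt with e | e
    · simp [← e]
    · rw [negMulLog, neg_mul, mul_neg]
      exact neg_le_neg (mul_le_mul_of_nonneg_left (log_le_log e (hz i hi)) e.le)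
  rw [← sum_mul, hp.sum_eq, one_mul] at this
  linarith

omit [DecidableEq G] in
/-- A subgroup of every admissible order up to a factor two. -/
theorem exists_subgroup_half (H : AddSubgroup G) {a : ℕ} (ha : 0 < a) :
    ∃ H' ≤ H, Nat.card H' ≤ a ∧ (H' = H ∨ a < 2 * Nat.card H') := by
  classical
  obtain ⟨H', hH', hmax⟩ := (univ.filter fun K : AddSubgroup G => K ≤ H ∧ Nat.card K ≤ a)
    |>.exists_max_image (fun K => Nat.card K) ⟨⊥, mem_filter.2 ⟨mem_univ _, bot_le, by simp; omega⟩⟩
  obtain ⟨-, hle, hcard⟩ := mem_filter.1 hH'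
  refine ⟨H', hle, hcard, or_iff_not_imp_left.2 fun hne => ?_⟩
  obtain ⟨x, hxH, hx⟩ := SetLike.exists_of_lt (lt_of_le_of_ne hle hne)
  let K : AddSubgroup G :=
    { carrier := {g | g ∈ H' ∨ g + x ∈ H'}
      zero_mem' := Or.inl (zero_mem _)
      add_mem' := by
        rintro g g' (h | h) (h' | h')
        · exact Or.inl (add_mem h h')
        · exact Or.inr (by rw [add_assoc]; exact add_mem h h')
        · exact Or.inr (by rw [add_right_comm]; exact add_mem h h')
        · refine Or.inl ?_
          convert add_mem h h' using 1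
          linear_combination (norm := abel) - ZModModule.add_self x
      neg_mem' := fun {g} hg => by rwa [ZModModule.neg_eq_self] }
  have hK : K ≤ H := by
    rintro g (h | h)
    · exact hle h
    · convert add_mem (hle h) hxH using 1
      linear_combination (norm := abel) - ZModModule.add_self x
  have hcardK : Nat.card K = 2 * Nat.card H' := by
    rw [two_mul, Nat.card_eq_fintype_card, Nat.card_eq_fintype_card, Fintype.card_subtype,
      Fintype.card_subtype]
    rw [show univ.filter (fun g => g ∈ K) =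
      univ.filter (fun g => g ∈ H') ∪ univ.filter (fun g => g + x ∈ H') by ext g; simp [K],
      card_union_of_disjoint (disjoint_filter.2 fun g _ h h' => hx (by
        simpa using sub_mem h' h))]
    congr 1
    exact card_equiv (Equiv.addRight x) fun g => by simp
  by_contra hlt
  have := hmax K (mem_filter.2 ⟨mem_univ _, hK, hcardK ▸ not_lt.1 hlt⟩)
  have : 0 < Nat.card H' := Nat.card_pos
  omega

/-- **The polynomial Freiman–Ruzsa theorem.** -/
theorem exists_cover {A : Finset G} (hA : A.Nonempty) {K : ℝ} (hK : #(A + A) ≤ K * #A) :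
    ∃ (H : AddSubgroup G) (T : Finset G), Nat.card H ≤ #A ∧ (#T : ℝ) ≤ 2 * K ^ 12 ∧
      ∀ a ∈ A, ∃ t ∈ T, a - t ∈ H := by
  classical
  have ha : (0 : ℝ) < #A := Nat.cast_pos.2 hA.card_pos
  have hK1 : 1 ≤ K := le_of_mul_le_mul_right (by
    rw [one_mul]
    exact le_trans (Nat.cast_le.2 (card_le_card_add_left hA)) hK) ha
  have hK0 : 0 < K := one_pos.trans_le hK1
  obtain ⟨U, hUdef⟩ : ∃ U : G → ℝ, U = fun z => if z ∈ A then (#A : ℝ)⁻¹ else 0 := ⟨_, rfl⟩
  have hU : IsLaw U := ⟨fun z => by rw [hUdef]; dsimp only; split_ifs <;> positivity, by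
    simp [hUdef, sum_ite_mem, mul_inv_cancel₀ ha.ne']⟩
  have hHU : entropy U = log #A := by
    simp only [entropy, hUdef, apply_ite negMulLog, negMulLog_zero, sum_ite_mem, univ_inter,
      sum_const, nsmul_eq_mul]
    rw [negMulLog, log_inv]
    field_simp
  have hAA : ∀ z, z ∉ A + A → conv U U z = 0 := fun z hz => by
    rw [conv_apply]
    refine sum_eq_zero fun x _ => ?_
    simp only [hUdef]
    split_ifs with h h'
    · exact absurd (Finset.mem_add.2 ⟨x, h, z + x, h', by
        linear_combination (norm := abel) ZModModule.add_self x⟩) hz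
    all_goals simp
  have hUU : rdist U U ≤ log K := by
    have h1 := (entropy_le_log_card (hU.conv hU) hAA).trans
      (log_le_log (Nat.cast_pos.2 (hA.add hA).card_pos) hK)
    rw [log_mul hK0.ne' ha.ne'] at h1
    rw [rdist, hHU]
    linarith
  obtain ⟨H, hdec, x, y, hxy⟩ := exists_cosetLaw_near hU hU
  obtain ⟨x₀, hx₀⟩ : ∃ x₀, rdist U (cosetLaw H x₀) ≤ 11 / 2 * log K := by
    rcases le_total (rdist U (cosetLaw H x)) (rdist U (cosetLaw H y)) with h | h
    · exact ⟨x, by linarith⟩
    · exact ⟨y, by linarith⟩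
  have hh : (0 : ℝ) < Nat.card H := Nat.cast_pos.2 Nat.card_pos
  have hcount : ∀ z, #(univ.filter fun w => w + z ∈ H) = Nat.card H := fun z => by
    rw [Nat.card_eq_fintype_card, Fintype.card_subtype]
    exact card_equiv (Equiv.addRight z) fun a => by simp
  have hV : IsLaw (cosetLaw H x₀) := ⟨fun z => by unfold cosetLaw; split_ifs <;> positivity, by
    simp only [cosetLaw, ← sum_filter, sum_const, hcount, nsmul_eq_mul, mul_inv_cancel₀ hh.ne']⟩
  have hHV : entropy (cosetLaw H x₀) = log (Nat.card H) := by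
    simp only [entropy, cosetLaw, apply_ite negMulLog, negMulLog_zero, ← sum_filter, sum_const,
      hcount, nsmul_eq_mul]
    rw [negMulLog, log_inv]
    field_simp
  obtain ⟨D, hD⟩ : ∃ D, D = 11 / 2 * log K := ⟨_, rfl⟩
  rw [← hD, rdist, hHU, hHV] at hx₀
  have hlow := entropy_le_conv hU hV
  have hlow' := entropy_le_conv hV hU
  rw [conv_comm (cosetLaw H x₀), hHV] at hlow'
  rw [hHU] at hlow
  obtain ⟨z, hz⟩ := exists_exp_neg_entropy_le (hU.conv hV)
  obtain ⟨B, hB⟩ : ∃ B, B = A.filter fun w => z + w + x₀ ∈ H := ⟨_, rfl⟩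
  have hconv : conv U (cosetLaw H x₀) z = #B / (#A * Nat.card H) := by
    rw [conv_apply, hB]
    simp only [hUdef, cosetLaw, ite_mul, zero_mul, mul_ite, mul_zero, sum_ite_mem,
      ← sum_filter, sum_const, nsmul_eq_mul]
    field_simp
    norm_cast
    congr 1
    ext w
    simp [and_comm]
  rw [hconv, le_div_iff₀ (mul_pos ha hh)] at hz
  have hBpos : (0 : ℝ) < #B := lt_of_lt_of_le (by positivity) hz
  have hBne : B.Nonempty := card_pos.1 (Nat.cast_pos.1 hBpos)
  have hlogB : log #A + log (Nat.card H) - entropy (conv U (cosetLaw H x₀)) ≤ log #B := by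
    have := log_le_log (by positivity) hz
    rw [log_mul (exp_pos _).ne' (mul_pos ha hh).ne', log_exp, log_mul ha.ne' hh.ne'] at this
    linarith
  have hBA : B ⊆ A := hB ▸ filter_subset _ _
  obtain ⟨F, -, hF, hAF⟩ := Finset.ruzsa_covering_add (A := A) (K := K * #A / #B) hBne (by
    rw [div_mul_cancel₀ _ hBpos.ne']
    exact le_trans (Nat.cast_le.2 (card_le_card (add_subset_add_left hBA))) hK)
  have hBB : ∀ b ∈ B - B, b ∈ H := fun b hb => by
    obtain ⟨u, hu, v, hv, rfl⟩ := Finset.mem_sub.1 hb
    rw [hB, mem_filter] at hu hv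
    have := sub_mem hu.2 hv.2
    simpa using this
  obtain ⟨H', hH', hH'card, hor⟩ := exists_subgroup_half H hA.card_pos
  have hh' : (0 : ℝ) < Nat.card H' := Nat.cast_pos.2 Nat.card_pos
  obtain ⟨F', -, hF', hHF'⟩ := Finset.ruzsa_covering_add
    (A := univ.filter fun w => w ∈ H) (B := univ.filter fun w => w ∈ H')
    (K := (Nat.card H : ℝ) / Nat.card H') ⟨0, by simp⟩ (by
    rw [Nat.card_eq_fintype_card, Fintype.card_subtype] at hh' ⊢
    rw [Nat.card_eq_fintype_card (α := H'), Fintype.card_subtype,
      div_mul_cancel₀ _ hh'.ne']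
    refine Nat.cast_le.2 (card_le_card fun w hw => ?_)
    obtain ⟨u, hu, v, hv, rfl⟩ := Finset.mem_add.1 hw
    simp only [mem_filter, mem_univ, true_and] at hu hv ⊢
    exact add_mem hu (hH' hv))
  refine ⟨H', F + F', hH'card, ?_, fun a haA => ?_⟩
  · have hT : (#(F + F') : ℝ) ≤ K * #A / #B * ((Nat.card H : ℝ) / Nat.card H') :=
      le_trans (by exact_mod_cast card_add_le) (mul_le_mul hF hF' (by positivity) (by positivity))
    refine hT.trans ((log_le_log_iff (by positivity) (by positivity)).1 ?_)
    rw [log_mul (by positivity) (by positivity), log_div (by positivity) hBpos.ne',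
      log_mul hK0.ne' ha.ne', log_div hh.ne' hh'.ne', log_mul (by norm_num) (by positivity),
      log_pow]
    have hl2 := log_pos one_lt_two
    push_cast
    rcases hor with rfl | hlt
    · linarith
    · have := log_le_log ha (show (#A : ℝ) ≤ 2 * Nat.card H' by exact_mod_cast hlt.le)
      rw [log_mul two_ne_zero hh'.ne'] at this
      linarith
  · obtain ⟨f, hf, b, hb, rfl⟩ := Finset.mem_add.1 (hAF haA)
    have hbH : b ∈ univ.filter fun w => w ∈ H := mem_filter.2 ⟨mem_univ _, hBB b hb⟩
    obtain ⟨f', hf', c, hc, rfl⟩ := Finset.mem_add.1 (hHF' hbH)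
    obtain ⟨u, hu, v, hv, rfl⟩ := Finset.mem_sub.1 hc
    refine ⟨f + f', add_mem_add hf hf', ?_⟩
    rw [show f + (f' + (u - v)) - (f + f') = u - v by abel]
    exact sub_mem (mem_filter.1 hu).2 (mem_filter.1 hv).2

end FA.MartonPFR
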